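import Mathlib.NumberTheory.ModularForms.EisensteinSeries.Basic
import Mathlib.NumberTheory.ModularForms.EisensteinSeries.IsBoundedAtImInfty
import Mathlib.NumberTheory.ModularForms.EisensteinSeries.MDifferentiable
import Mathlib.NumberTheory.ModularForms.CongruenceSubgroups
import Mathlib.NumberTheory.Modular
import Mathlib.Analysis.Normed.Group.Tannery

/-!
Eisenstein series of weight `k ≥ 3` on a subgroup `Γ` of `SL(2, ℤ)` with a unitary character `χ`
which is trivial on parabolic elements: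
`E_χ (τ) = ∑_{v} χ(γ_v)⁻¹ (v₀ τ + v₁)^{-k}`, the sum over the bottom rows `v` of elements of `Γ`.
-/

set_option autoImplicit false

noncomputable section

namespace Fermat.Agent.TorsSurj

open UpperHalfPlane EisensteinSeries CongruenceSubgroup Matrix ModularForm
open scoped MatrixGroups Manifold Topology

/-- bottom row -/
def rowOf (g : SL(2, ℤ)) : Fin 2 → ℤ := (g : Matrix (Fin 2) (Fin 2) ℤ) 1

theorem rowOf_mul (g h : SL(2, ℤ)) :
    rowOf (g * h) = rowOf g ᵥ* (h : Matrix (Fin 2) (Fin 2) ℤ) := by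
  rw [rowOf, Matrix.SpecialLinearGroup.coe_mul, Matrix.mul_apply_eq_vecMul, rowOf]

theorem trace_of_rowOf_eq {g h : SL(2, ℤ)} (e : rowOf g = rowOf h) :
    ((g * h⁻¹ : SL(2, ℤ)) : Matrix (Fin 2) (Fin 2) ℤ).trace = 2 := by
  have e0 : g 1 0 = h 1 0 := congrFun e 0
  have e1 : g 1 1 = h 1 1 := congrFun e 1
  have hg := g.det_coe
  have hh := h.det_coe
  rw [Matrix.det_fin_two] at hg hh
  rw [Matrix.SpecialLinearGroup.coe_mul, Matrix.SpecialLinearGroup.coe_inv,
    Matrix.adjugate_fin_two, Matrix.trace_fin_two, Matrix.mul_apply, Matrix.mul_apply]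
  simp only [Fin.sum_univ_two, Matrix.of_apply, Matrix.cons_val', Matrix.cons_val_zero,
    Matrix.cons_val_one, Matrix.empty_val', Matrix.cons_val_fin_one]
  rw [e0, e1] at *
  linear_combination hg + hh

/-- bottom rows of elements of `Γ` -/
structure Row (Γ : Subgroup SL(2, ℤ)) : Type where
  /-- the vector -/
  vec : Fin 2 → ℤ
  ex : ∃ γ : Γ, rowOf (γ : SL(2, ℤ)) = vec

variable {Γ : Subgroup SL(2, ℤ)}

namespace Row

@[ext] theorem ext' {v w : Row Γ} (h : v.vec = w.vec) : v = w := by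
  cases v; cases w; cases h; rfl

theorem vec_injective : Function.Injective (Row.vec (Γ := Γ)) := fun _ _ h => ext' h

/-- the bottom row of a matrix -/
def ofMat (γ : Γ) : Row Γ where
  vec := rowOf (γ : SL(2, ℤ))
  ex := ⟨γ, rfl⟩

theorem exists_mat (v : Row Γ) : ∃ γ : Γ, ofMat γ = v := by
  obtain ⟨g, hg⟩ := v.ex
  exact ⟨g, ext' hg⟩

/-- a matrix with the given bottom row -/
def mat (v : Row Γ) : Γ := (exists_mat v).choose

@[simp] theorem ofMat_mat (v : Row Γ) : ofMat (mat v) = v := (exists_mat v).choose_spec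

/-- matrices with the same bottom row -/
theorem trace_of_eq {g h : Γ} (e : ofMat g = ofMat h) :
    (((g * h⁻¹ : Γ) : SL(2, ℤ)) : Matrix (Fin 2) (Fin 2) ℤ).trace = 2 :=
  trace_of_rowOf_eq (congrArg Row.vec e)

/-- right multiplication by an element of `Γ` on rows -/
def mul (v : Row Γ) (γ : Γ) : Row Γ := ofMat (mat v * γ)

theorem mul_vec (v : Row Γ) (γ : Γ) :
    (mul v γ).vec = v.vec ᵥ* ((γ : SL(2, ℤ)) : Matrix (Fin 2) (Fin 2) ℤ) := by
  have h : (mul v γ).vec = rowOf ((mat v : SL(2, ℤ)) * (γ : SL(2, ℤ))) := rfl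
  have h2 : v.vec = rowOf (mat v : SL(2, ℤ)) := congrArg Row.vec (ofMat_mat v).symm
  rw [h, rowOf_mul, h2]

theorem ofMat_mul (g h : Γ) : ofMat (g * h) = mul (ofMat g) h := by
  apply ext'
  rw [mul_vec]
  exact rowOf_mul _ _

theorem mul_mul (v : Row Γ) (g h : Γ) : mul (mul v g) h = mul v (g * h) := by
  rw [mul, mul, mul, ← mul_assoc, ofMat_mul _ h, ofMat_mat, ofMat_mul _ h]

theorem mul_one (v : Row Γ) : mul v 1 = v := by
  rw [mul, _root_.mul_one, ofMat_mat]

/-- right multiplication as an equivalence -/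
def mulEquiv (γ : Γ) : Row Γ ≃ Row Γ where
  toFun v := mul v γ
  invFun v := mul v γ⁻¹
  left_inv v := by
    change mul (mul v γ) γ⁻¹ = v
    rw [mul_mul, mul_inv_cancel, mul_one]
  right_inv v := by
    change mul (mul v γ⁻¹) γ = v
    rw [mul_mul, inv_mul_cancel, mul_one]

end Row

/-- unitary characters of `Γ`, trivial on elements with `trace² = 4`. -/
structure IsParChar (χ : Γ →* ℂˣ) : Prop where
  norm_eq : ∀ γ, ‖(χ γ : ℂ)‖ = 1
  par : ∀ γ : Γ, ((γ : SL(2, ℤ)) : Matrix (Fin 2) (Fin 2) ℤ).trace ^ 2 = 4 → χ γ = 1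

variable {χ : Γ →* ℂˣ}

theorem IsParChar.mat_mul (hχ : IsParChar χ) (v : Row Γ) (γ : Γ) :
    χ (Row.mat (Row.mul v γ)) = χ (Row.mat v) * χ γ := by
  have h : Row.ofMat (Row.mat (Row.mul v γ)) = Row.ofMat (Row.mat v * γ) := by
    rw [Row.ofMat_mat, Row.ofMat_mul, Row.ofMat_mat]
  have h2 := hχ.par _ (by rw [Row.trace_of_eq h]; norm_num)
  rw [map_mul, map_inv, map_mul, mul_inv_eq_one] at h2
  exact h2

/-- The Eisenstein series with character. -/
def eisChar (χ : Γ →* ℂˣ) (k : ℤ) (z : ℍ) : ℂ :=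
  ∑' v : Row Γ, ((χ (Row.mat v))⁻¹ : ℂˣ) * eisSummand k v.vec z

theorem norm_term (hχ : IsParChar χ) (k : ℤ) (v : Row Γ) (w : Fin 2 → ℤ) (z : ℍ) :
    ‖((χ (Row.mat v))⁻¹ : ℂˣ) * eisSummand k w z‖ = ‖eisSummand k w z‖ := by
  rw [norm_mul, Units.val_inv_eq_inv_val, norm_inv, hχ.norm_eq, inv_one, one_mul]

theorem vecMul_injective (δ : SL(2, ℤ)) :
    Function.Injective fun v : Fin 2 → ℤ => v ᵥ* (δ : Matrix (Fin 2) (Fin 2) ℤ) := by
  intro v w h
  have := congrArg (fun u : Fin 2 → ℤ => u ᵥ* ((δ⁻¹ : SL(2, ℤ)) : Matrix (Fin 2) (Fin 2) ℤ)) h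
  simpa only [Matrix.vecMul_vecMul, ← Matrix.SpecialLinearGroup.coe_mul, mul_inv_cancel,
    Matrix.SpecialLinearGroup.coe_one, Matrix.vecMul_one] using this

theorem summable_norm_row (k : ℤ) (hk : 3 ≤ k) (δ : SL(2, ℤ)) (z : ℍ) :
    Summable fun v : Row Γ => ‖eisSummand k (v.vec ᵥ* (δ : Matrix (Fin 2) (Fin 2) ℤ)) z‖ :=
  (summable_norm_eisSummand hk z).comp_injective
    ((vecMul_injective δ).comp Row.vec_injective)

theorem summable_term (hχ : IsParChar χ) (k : ℤ) (hk : 3 ≤ k) (δ : SL(2, ℤ)) (z : ℍ) :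
    Summable fun v : Row Γ =>
      (((χ (Row.mat v))⁻¹ : ℂˣ) : ℂ) * eisSummand k (v.vec ᵥ* (δ : Matrix (Fin 2) (Fin 2) ℤ)) z := by
  refine Summable.of_norm ?_
  simp only [norm_term hχ]
  exact summable_norm_row k hk δ z

theorem eisChar_smul_SL (χ : Γ →* ℂˣ) (k : ℤ) (δ : SL(2, ℤ)) (z : ℍ) :
    eisChar χ k (δ • z) = denom δ z ^ k * ∑' v : Row Γ, (((χ (Row.mat v))⁻¹ : ℂˣ) : ℂ) *
      eisSummand k (v.vec ᵥ* (δ : Matrix (Fin 2) (Fin 2) ℤ)) z := by
  rw [eisChar, ← tsum_mul_left]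
  refine tsum_congr fun v => ?_
  rw [eisSummand_SL2_apply]
  ring

/-- modularity -/
theorem eisChar_smul (hχ : IsParChar χ) (k : ℤ) (γ : Γ) (z : ℍ) :
    eisChar χ k ((γ : SL(2, ℤ)) • z) = χ γ * denom (γ : SL(2, ℤ)) z ^ k * eisChar χ k z := by
  rw [eisChar_smul_SL, mul_comm (χ γ : ℂ), mul_assoc]
  congr 1
  rw [eisChar, ← tsum_mul_left, ← (Row.mulEquiv γ).tsum_eq (fun v => (χ γ : ℂ) * _)]
  refine tsum_congr fun v => ?_
  change _ = (χ γ : ℂ) * ((((χ (Row.mat (Row.mul v γ)))⁻¹ : ℂˣ) : ℂ) * eisSummand k (Row.mul v γ).vec z)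
  rw [hχ.mat_mul, Row.mul_vec, ← mul_assoc]
  congr 1
  rw [_root_.mul_inv, Units.val_mul, mul_comm ((χ (Row.mat v))⁻¹ : ℂˣ).val, ← mul_assoc,
    ← Units.val_mul, mul_inv_cancel, Units.val_one, one_mul]

/-- the bound used everywhere -/
def bd (k : ℤ) (A B : ℝ) (hB : 0 < B) (x : Fin 2 → ℤ) : ℝ :=
  r ⟨⟨A, B⟩, hB⟩ ^ (-(k : ℝ)) * ‖x‖ ^ (-(k : ℝ))

theorem summable_bd (k : ℤ) (hk : 3 ≤ k) (A B : ℝ) (hB : 0 < B) : Summable (bd k A B hB) := by
  have hk' : (2 : ℝ) < k := by norm_cast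
  exact (summable_one_div_norm_rpow hk').mul_left _

theorem norm_eisSummand_le (k : ℤ) (hk : 0 ≤ k) {A B : ℝ} (hB : 0 < B) {z : ℍ}
    (hz : z ∈ verticalStrip A B) (x : Fin 2 → ℤ) : ‖eisSummand k x z‖ ≤ bd k A B hB x := by
  have hk' : (0 : ℝ) ≤ k := by exact_mod_cast hk
  have := summand_bound_of_mem_verticalStrip hk' x hB hz
  rw [eisSummand, norm_zpow, bd]
  rw [← Int.cast_neg, Real.rpow_intCast] at this
  rw [← Int.cast_neg]
  exact this

theorem tsum_norm_T (k : ℤ) (n : ℤ) (z : ℍ) :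
    ∑' x : Fin 2 → ℤ, ‖eisSummand k x (ModularGroup.T ^ n • z)‖ =
      ∑' x : Fin 2 → ℤ, ‖eisSummand k x z‖ := by
  have hd : denom ((ModularGroup.T ^ n : SL(2, ℤ)) : GL (Fin 2) ℝ) z = 1 := by
    have h0 : ((ModularGroup.T ^ n : SL(2, ℤ)) : Matrix (Fin 2) (Fin 2) ℤ) 1 0 = 0 := by
      rw [ModularGroup.coe_T_zpow]; rfl
    have h1 : ((ModularGroup.T ^ n : SL(2, ℤ)) : Matrix (Fin 2) (Fin 2) ℤ) 1 1 = 1 := by
      rw [ModularGroup.coe_T_zpow]; rfl
    have h2 : denom ((ModularGroup.T ^ n : SL(2, ℤ)) : GL (Fin 2) ℝ) z =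
      (((ModularGroup.T ^ n : SL(2, ℤ)) : Matrix (Fin 2) (Fin 2) ℤ) 1 0 : ℂ) * z +
      (((ModularGroup.T ^ n : SL(2, ℤ)) : Matrix (Fin 2) (Fin 2) ℤ) 1 1 : ℂ) := rfl
    rw [h2, h0, h1]
    simp
  let e : (Fin 2 → ℤ) ≃ (Fin 2 → ℤ) :=
    { toFun := fun v => v ᵥ* ((ModularGroup.T ^ n : SL(2, ℤ)) : Matrix (Fin 2) (Fin 2) ℤ)
      invFun := fun v => v ᵥ* (((ModularGroup.T ^ n)⁻¹ : SL(2, ℤ)) : Matrix (Fin 2) (Fin 2) ℤ)
      left_inv := fun v => by
        change (v ᵥ* _) ᵥ* _ = v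
        rw [Matrix.vecMul_vecMul, ← Matrix.SpecialLinearGroup.coe_mul, mul_inv_cancel,
          Matrix.SpecialLinearGroup.coe_one, Matrix.vecMul_one]
      right_inv := fun v => by
        change (v ᵥ* _) ᵥ* _ = v
        rw [Matrix.vecMul_vecMul, ← Matrix.SpecialLinearGroup.coe_mul, inv_mul_cancel,
          Matrix.SpecialLinearGroup.coe_one, Matrix.vecMul_one] }
  rw [← e.tsum_eq (fun x => ‖eisSummand k x z‖)]
  refine tsum_congr fun x => ?_
  rw [eisSummand_SL2_apply, hd, one_zpow, one_mul]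
  rfl

theorem tsum_norm_le (k : ℤ) (hk : 3 ≤ k) (z : ℍ) (hz : 1 ≤ z.im) :
    ∑' x : Fin 2 → ℤ, ‖eisSummand k x z‖ ≤ ∑' x, bd k 1 1 one_pos x := by
  obtain ⟨n, hn⟩ := ModularGroup_T_zpow_mem_verticalStrip z Nat.one_pos
  rw [← tsum_norm_T k (((1 : ℕ) : ℤ) * n) z]
  refine (summable_norm_eisSummand hk _).tsum_le_tsum (fun x => ?_) (summable_bd k hk 1 1 one_pos)
  exact norm_eisSummand_le k (by omega) one_pos (by
    have := verticalStrip_anti_right ((1 : ℕ) : ℝ) hz hn
    simpa using this) x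

/-- bound for all translates at `i∞` -/
theorem isBoundedAtImInfty_eisChar (hχ : IsParChar χ) (k : ℤ) (hk : 3 ≤ k) (δ : SL(2, ℤ)) :
    IsBoundedAtImInfty (eisChar χ k ∣[k] δ) := by
  rw [UpperHalfPlane.isBoundedAtImInfty_iff]
  refine ⟨∑' x, bd k 1 1 one_pos x, 1, fun z hz => ?_⟩
  have h1 : (eisChar χ k ∣[k] δ) z = ∑' v : Row Γ, (((χ (Row.mat v))⁻¹ : ℂˣ) : ℂ) *
      eisSummand k (v.vec ᵥ* (δ : Matrix (Fin 2) (Fin 2) ℤ)) z := by
    rw [SL_slash_apply, eisChar_smul_SL, zpow_neg, mul_comm, ← mul_assoc,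
      inv_mul_cancel₀ (zpow_ne_zero _ (denom_ne_zero _ z)), one_mul]
  rw [h1]
  refine (norm_tsum_le_tsum_norm ?_).trans ?_
  · simp only [norm_term hχ]
    exact summable_norm_row k hk δ z
  simp only [norm_term hχ]
  refine le_trans ?_ (tsum_norm_le k hk z hz)
  exact (summable_norm_row k hk δ z).tsum_le_tsum_of_inj
    (fun v : Row Γ => v.vec ᵥ* (δ : Matrix (Fin 2) (Fin 2) ℤ))
    ((vecMul_injective δ).comp Row.vec_injective) (fun _ _ => norm_nonneg _) (fun _ => le_rfl)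
    (summable_norm_eisSummand hk z)

/-- holomorphy -/
theorem mdiff_eisChar (hχ : IsParChar χ) (k : ℤ) (hk : 3 ≤ k) : MDiff (eisChar χ k) := by
  rw [UpperHalfPlane.mdifferentiable_iff]
  intro z hz
  obtain ⟨A, B, hA, hB, hz'⟩ : ∃ A B : ℝ, 0 < B ∧ (|z.re| < A ∧ B < z.im) ∧ True :=
    ⟨|z.re| + 1, z.im / 2, half_pos hz, ⟨by linarith, half_lt_self hz⟩, trivial⟩
  let U : Set ℂ := {w | |w.re| < A ∧ B < w.im}
  have hU : IsOpen U := (isOpen_lt (Complex.continuous_re.abs) continuous_const).inter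
    (isOpen_lt continuous_const Complex.continuous_im)
  have hUpos : ∀ w ∈ U, 0 < w.im := fun w hw => hA.trans hw.2
  have hd : DifferentiableOn ℂ (fun w : ℂ => ∑' v : Row Γ,
      (((χ (Row.mat v))⁻¹ : ℂˣ) : ℂ) * eisSummand k v.vec (ofComplex w)) U := by
    refine Complex.differentiableOn_tsum_of_summable_norm
      (u := fun v : Row Γ => bd k A B hA v.vec)
      ((summable_bd k hk A B hA).comp_injective Row.vec_injective) (fun v => ?_) hU ?_
    · refine DifferentiableOn.const_mul ?_ _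
      exact (eisSummand_extension_differentiableOn k v.vec).mono hUpos
    · intro v w hw
      rw [norm_term hχ]
      refine norm_eisSummand_le k (by omega) hA ?_ _
      rw [mem_verticalStrip_iff, UpperHalfPlane.ofComplex_apply_of_im_pos (hUpos w hw)]
      exact ⟨hw.1.le, hw.2.le⟩
  exact ((hd z hB).differentiableAt (hU.mem_nhds hB)).differentiableWithinAt

/-- the value at `i∞` is nonzero (for even `k`) -/
theorem tendsto_eisChar (hχ : IsParChar χ) (k : ℤ) (hk : 3 ≤ k) (he : Even k) :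
    ∃ L : ℂ, L ≠ 0 ∧
    Filter.Tendsto (fun t : ℝ => eisChar χ k (ofComplex (t * Complex.I))) Filter.atTop
      (𝓝 L) := by
  classical
  let f : Row Γ → ℂ := fun v => if v.vec 0 = 0 then 1 else 0
  have hcop : ∀ v : Row Γ, IsCoprime (v.vec 0) (v.vec 1) := by
    intro v
    obtain ⟨g, hg⟩ := v.ex
    rw [← hg]
    exact ModularGroup.bottom_row_coprime _
  have hfin : {v : Row Γ | v.vec 0 = 0}.Finite := by
    refine Set.Finite.of_finite_image (f := fun v : Row Γ => v.vec 1) ?_ ?_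
    · refine Set.Finite.subset (Set.toFinite {1, -1}) ?_
      rintro _ ⟨v, hv, rfl⟩
      have hc := hcop v
      rw [show v.vec 0 = 0 from hv, isCoprime_zero_left, Int.isUnit_iff] at hc
      simpa using hc
    · intro v hv w hw h
      apply Row.ext'
      funext i
      fin_cases i
      · exact (show v.vec 0 = 0 from hv).trans (show w.vec 0 = 0 from hw).symm
      · exact h
  have hsum : ∑' v : Row Γ, f v = (hfin.toFinset.card : ℂ) := by
    rw [tsum_eq_sum (s := hfin.toFinset)]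
    · rw [Finset.sum_congr rfl (g := fun _ => (1 : ℂ))]
      · simp
      · intro v hv
        exact if_pos (by simpa using hv)
    · intro v hv
      exact if_neg (by simpa using hv)
  refine ⟨∑' v : Row Γ, f v, ?_, ?_⟩
  · rw [hsum]
    have hne : hfin.toFinset.Nonempty := by
      refine ⟨Row.ofMat 1, ?_⟩
      rw [Set.Finite.mem_toFinset]
      rfl
    exact_mod_cast (Finset.card_pos.mpr hne).ne'
  refine tendsto_tsum_of_dominated_convergence (bound := fun v : Row Γ => bd k 1 1 one_pos v.vec)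
    ((summable_bd k hk 1 1 one_pos).comp_injective Row.vec_injective) (fun v => ?_) ?_
  · by_cases h0 : v.vec 0 = 0
    · have hc := hcop v
      rw [h0, isCoprime_zero_left, Int.isUnit_iff] at hc
      have hχ1 : χ (Row.mat v) = 1 := by
        apply hχ.par
        have hm : rowOf (Row.mat v : SL(2, ℤ)) = v.vec := congrArg Row.vec (Row.ofMat_mat v)
        have h10 : (Row.mat v : SL(2, ℤ)) 1 0 = 0 := (congrFun hm 0).trans h0
        have h11 : (Row.mat v : SL(2, ℤ)) 1 1 = v.vec 1 := congrFun hm 1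
        have hdet := (Row.mat v : SL(2, ℤ)).det_coe
        rw [Matrix.det_fin_two, h10, h11, mul_zero, sub_zero] at hdet
        rw [Matrix.trace_fin_two, h11]
        rcases hc with h1 | h1
        · rw [h1] at hdet ⊢
          have : (Row.mat v : SL(2, ℤ)) 0 0 = 1 := by linarith
          rw [this]; norm_num
        · rw [h1] at hdet ⊢
          have : (Row.mat v : SL(2, ℤ)) 0 0 = -1 := by linarith
          rw [this]; norm_num
      have hf : f v = 1 := if_pos h0
      rw [hf]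
      have : (fun t : ℝ => (((χ (Row.mat v))⁻¹ : ℂˣ) : ℂ) *
          eisSummand k v.vec (ofComplex (t * Complex.I))) = fun _ => (1 : ℂ) := by
        funext t
        rw [hχ1, inv_one, Units.val_one, one_mul, eisSummand, h0]
        rcases hc with h1 | h1
        · rw [h1]; simp
        · rw [h1]
          simp only [Int.cast_zero, zero_mul, zero_add, Int.cast_neg, Int.cast_one]
          exact Even.neg_one_zpow he.neg
      rw [this]
      exact tendsto_const_nhds
    · have hf : f v = 0 := if_neg h0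
      rw [hf]
      rw [tendsto_zero_iff_norm_tendsto_zero]
      simp only [norm_term hχ]
      have hlim : Filter.Tendsto (fun t : ℝ => t ^ (-k)) Filter.atTop (𝓝 0) :=
        tendsto_zpow_atTop_zero (by omega)
      refine squeeze_zero' (Filter.Eventually.of_forall fun _ => norm_nonneg _) ?_ hlim
      filter_upwards [Filter.eventually_gt_atTop 0] with t ht
      rw [eisSummand, norm_zpow, UpperHalfPlane.ofComplex_apply_of_im_pos (by simpa using ht)]
      have h1 : t ≤ ‖(v.vec 0 : ℂ) * (t * Complex.I) + v.vec 1‖ := by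
        refine le_trans ?_ (Complex.abs_im_le_norm _)
        have : ((v.vec 0 : ℂ) * (t * Complex.I) + v.vec 1).im = v.vec 0 * t := by simp
        rw [this, abs_mul, abs_of_pos ht]
        have h2 : (1 : ℝ) ≤ |(v.vec 0 : ℝ)| := by
          exact_mod_cast Int.one_le_abs h0
        nlinarith
      rw [zpow_neg, zpow_neg]
      refine inv_anti₀ (zpow_pos ht _) ?_
      exact zpow_le_zpow_left₀ (by omega) ht.le h1
  · filter_upwards [Filter.eventually_ge_atTop 1] with t ht v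
    rw [norm_term hχ]
    have ht0 : 0 < t := by linarith
    refine norm_eisSummand_le k (by omega) one_pos ?_ _
    rw [mem_verticalStrip_iff, UpperHalfPlane.ofComplex_apply_of_im_pos (by simpa using ht0)]
    constructor
    · simp [UpperHalfPlane.re]
    · simpa [UpperHalfPlane.im] using ht

theorem eisChar_ne_zero (hχ : IsParChar χ) (k : ℤ) (hk : 3 ≤ k) (he : Even k) :
    eisChar χ k ≠ 0 := by
  intro h
  obtain ⟨L, hL, h1⟩ := tendsto_eisChar hχ k hk he
  rw [h] at h1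
  exact hL (tendsto_nhds_unique h1 tendsto_const_nhds)

end Fermat.Agent.TorsSurj

end
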